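import Mathlib

/-!
# S55 / G / REC, leaf K5 (helper379): Hilbert 90 by Poincaré series, for infinite groups

`Γ` acts on a field `L` by ring automorphisms, `φ : Γ → Lˣ` is a 1-cocycle which is invariant
under right translation by a subgroup `N` of finite index, and `N` is exactly the stabiliser of
the image of a monoid `X → L`.  Then `φ` is a coboundary (Dedekind's independence of characters
applied to the Poincaré series `∑_{t ∈ Γ/N} φ(t) · t(x)`).

No finiteness of `Γ`, no topology, no Galois theory.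
-/

set_option autoImplicit false

namespace Fermat.Agent.S55.G.Rec.K5H379

section Poincare

variable {Γ L X : Type*} [Group Γ] [Field L] [MulSemiringAction Γ L] [Monoid X]

/-- The character `x ↦ g • ι x` of the monoid `X`. -/
def twistHom (ι : X →* L) (g : Γ) : X →* L where
  toFun x := g • ι x
  map_one' := by rw [map_one, smul_one]
  map_mul' x y := by rw [map_mul, smul_mul']

@[simp] lemma twistHom_apply (ι : X →* L) (g : Γ) (x : X) : twistHom ι g x = g • ι x := rfl

lemma twistHom_eq_of_coset (ι : X →* L) {N : Subgroup Γ} (hfix : ∀ s ∈ N, ∀ x, s • ι x = ι x)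
    {g g' : Γ} (h : (g : Γ ⧸ N) = (g' : Γ ⧸ N)) : twistHom ι g = twistHom ι g' := by
  ext x
  have h1 : g⁻¹ * g' ∈ N := QuotientGroup.eq.mp h
  have h2 := hfix _ h1 x
  simp only [twistHom_apply]
  calc g • ι x = g • ((g⁻¹ * g') • ι x) := by rw [h2]
    _ = g' • ι x := by rw [smul_smul, mul_inv_cancel_left]

lemma twistHom_out_injective (ι : X →* L) {N : Subgroup Γ}
    (hN : ∀ g : Γ, (∀ x, g • ι x = ι x) → g ∈ N) :
    Function.Injective fun t : Γ ⧸ N => twistHom ι (Quotient.out t : Γ) := by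
  intro t t' h
  have h1 : (Quotient.out t : Γ)⁻¹ * (Quotient.out t' : Γ) ∈ N := by
    refine hN _ fun x => ?_
    have h2 : (Quotient.out t : Γ) • ι x = (Quotient.out t' : Γ) • ι x := DFunLike.congr_fun h x
    rw [mul_smul, ← h2, smul_smul, inv_mul_cancel, one_smul]
  have h3 : ((Quotient.out t : Γ) : Γ ⧸ N) = ((Quotient.out t' : Γ) : Γ ⧸ N) :=
    QuotientGroup.eq.mpr h1
  rwa [QuotientGroup.out_eq', QuotientGroup.out_eq'] at h3

/-- **Hilbert 90 by Poincaré series.** -/
theorem exists_mul_smul_eq (ι : X →* L) (N : Subgroup Γ) [N.FiniteIndex]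
    (hfix : ∀ s ∈ N, ∀ x, s • ι x = ι x) (hN : ∀ g : Γ, (∀ x, g • ι x = ι x) → g ∈ N)
    (φ : Γ → L) (hφ0 : ∀ g, φ g ≠ 0) (hφ : ∀ g h, φ (g * h) = φ g * g • φ h)
    (hlev : ∀ g, ∀ s ∈ N, φ (g * s) = φ g) :
    ∃ c : L, c ≠ 0 ∧ ∀ g, φ g * g • c = c := by
  classical
  let _ : Fintype (Γ ⧸ N) := Subgroup.fintypeQuotientOfFiniteIndex
  -- `φ` and the twisted characters only depend on the coset
  have hφcoset : ∀ g g' : Γ, (g : Γ ⧸ N) = (g' : Γ ⧸ N) → φ g = φ g' := by
    intro g g' h
    have h1 : g⁻¹ * g' ∈ N := QuotientGroup.eq.mp h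
    have := hlev g _ h1
    rw [mul_inv_cancel_left] at this
    exact this.symm
  -- Dedekind
  have hli : LinearIndependent L (fun t : Γ ⧸ N => (twistHom ι (Quotient.out t : Γ) : X → L)) :=
    (linearIndependent_monoidHom X L).comp _ (twistHom_out_injective ι hN)
  have hne : ∃ x : X, ∑ t : Γ ⧸ N, φ (Quotient.out t : Γ) * (Quotient.out t : Γ) • ι x ≠ 0 := by
    by_contra hcon
    have hcon' : ∀ x : X,
        ∑ t : Γ ⧸ N, φ (Quotient.out t : Γ) * (Quotient.out t : Γ) • ι x = 0 := by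
      intro x
      by_contra hx
      exact hcon ⟨x, hx⟩
    have hzero : ∑ t : Γ ⧸ N, φ (Quotient.out t : Γ) •
        (twistHom ι (Quotient.out t : Γ) : X → L) = 0 := by
      funext x
      simp only [Finset.sum_apply, Pi.smul_apply, twistHom_apply, smul_eq_mul, Pi.zero_apply]
      exact hcon' x
    have := (linearIndependent_iff'.1 hli) Finset.univ _ hzero
      ((1 : Γ) : Γ ⧸ N) (Finset.mem_univ _)
    exact hφ0 _ this
  obtain ⟨x, hx⟩ := hne
  refine ⟨_, hx, fun g => ?_⟩
  rw [Finset.smul_sum, Finset.mul_sum]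
  -- reindex by `t ↦ g • t`
  rw [← Equiv.sum_comp (MulAction.toPerm g : Equiv.Perm (Γ ⧸ N))
    (fun t => φ (Quotient.out t : Γ) * (Quotient.out t : Γ) • ι x)]
  refine Finset.sum_congr rfl fun t _ => ?_
  have hcos : ((g * (Quotient.out t : Γ) : Γ) : Γ ⧸ N) =
      ((Quotient.out (g • t) : Γ) : Γ ⧸ N) := by
    rw [QuotientGroup.out_eq']
    conv_rhs => rw [← QuotientGroup.out_eq' t]
    rfl
  have e1 : φ (Quotient.out (g • t) : Γ) = φ g * g • φ (Quotient.out t : Γ) := by
    rw [← hφ]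
    exact (hφcoset _ _ hcos).symm
  have e2 : (Quotient.out (g • t) : Γ) • ι x = g • ((Quotient.out t : Γ) • ι x) := by
    have := DFunLike.congr_fun (twistHom_eq_of_coset ι hfix hcos) x
    simp only [twistHom_apply] at this
    rw [← this, mul_smul]
  simp only [MulAction.toPerm_apply]
  rw [e1, e2, smul_mul', mul_assoc]

end Poincare

end Fermat.Agent.S55.G.Rec.K5H379
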