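import Fermat.Agent.S55.G.Rec.Defs2

/-!
# S55 / G / REC, leaf K5 (helper379): a generator of the image of a character `G → ℤ/n`

For a nontrivial character `χ : G →* Multiplicative (ZMod n)` there are `σ : G` and `e d : ℕ` with
`e * d = n`, `χ̃ σ = e` (canonical lift) and every value `χ̃ g` is `k * e` with `k < d`.
-/

set_option autoImplicit false

namespace Fermat.Agent.S55.G.Rec.K5H379

open Fermat.Agent.S55.G.Rec

section Generator

variable {G : Type*} [Group G] {n : ℕ}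

lemma chiAdd_one (χ : G →* Multiplicative (ZMod n)) : chiAdd χ 1 = 0 := by
  simp [chiAdd]

lemma chiAdd_zpow (χ : G →* Multiplicative (ZMod n)) (g : G) (c : ℤ) :
    chiAdd χ (g ^ c) = c • chiAdd χ g := by
  simp [chiAdd, map_zpow, toAdd_zpow]

lemma chiAdd_pow (χ : G →* Multiplicative (ZMod n)) (g : G) (c : ℕ) :
    chiAdd χ (g ^ c) = c • chiAdd χ g := by
  simp [chiAdd, map_pow, toAdd_pow]

lemma chiAdd_eq_zero_iff (χ : G →* Multiplicative (ZMod n)) (g : G) :
    chiAdd χ g = 0 ↔ χ g = 1 := by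
  unfold chiAdd
  constructor
  · intro h
    exact Multiplicative.toAdd.injective h
  · intro h
    rw [h]
    rfl

/-- The ideal of the integers lifting a value of `χ`. -/
def valIdeal (χ : G →* Multiplicative (ZMod n)) : Ideal ℤ where
  carrier := {m | ∃ g, chiAdd χ g = (m : ZMod n)}
  zero_mem' := ⟨1, by rw [chiAdd_one, Int.cast_zero]⟩
  add_mem' := by
    rintro a b ⟨g, hg⟩ ⟨h, hh⟩
    exact ⟨g * h, by rw [chiAdd_mul, hg, hh, Int.cast_add]⟩
  smul_mem' := by
    rintro c m ⟨g, hg⟩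
    refine ⟨g ^ c, ?_⟩
    rw [chiAdd_zpow, hg, smul_eq_mul, Int.cast_mul, zsmul_eq_mul]

lemma mem_valIdeal (χ : G →* Multiplicative (ZMod n)) (m : ℤ) :
    m ∈ valIdeal χ ↔ ∃ g, chiAdd χ g = (m : ZMod n) := Iff.rfl

variable [NeZero n]

theorem exists_generator (χ : G →* Multiplicative (ZMod n)) (hne : ∃ g, χ g ≠ 1) :
    ∃ (σ : G) (e d : ℕ), 0 < e ∧ e * d = n ∧ (chiAdd χ σ).val = e ∧
      ∀ g, ∃ k < d, (chiAdd χ g).val = k * e := by
  have hn0 : n ≠ 0 := NeZero.ne n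
  set I := valIdeal χ with hI
  set e₀ : ℤ := Submodule.IsPrincipal.generator I with he₀
  have hmem : ∀ m : ℤ, m ∈ I ↔ e₀ ∣ m := fun m =>
    Submodule.IsPrincipal.mem_iff_generator_dvd I
  have hnI : (n : ℤ) ∈ I := ⟨1, by rw [chiAdd_one]; simp⟩
  have he₀n : e₀ ∣ (n : ℤ) := (hmem _).1 hnI
  set e : ℕ := e₀.natAbs with he
  have hen : e ∣ n := by
    have h2 : e₀.natAbs ∣ ((n : ℕ) : ℤ).natAbs := Int.natAbs_dvd_natAbs.2 he₀n
    rwa [Int.natAbs_natCast] at h2
  have he0 : 0 < e := Nat.pos_of_dvd_of_pos hen (Nat.pos_of_ne_zero hn0)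
  have hvalmem : ∀ g, ((chiAdd χ g).val : ℤ) ∈ I := fun g => ⟨g, by simp⟩
  have hdvd : ∀ g, e ∣ (chiAdd χ g).val := by
    intro g
    have h1 := (hmem _).1 (hvalmem g)
    have h2 : e₀.natAbs ∣ ((chiAdd χ g).val : ℤ).natAbs := Int.natAbs_dvd_natAbs.2 h1
    rwa [Int.natAbs_natCast] at h2
  have heI : (e : ℤ) ∈ I := (hmem _).2 (by rw [he]; exact Int.dvd_natAbs_self)
  obtain ⟨σ, hσ⟩ := heI
  obtain ⟨d, hd⟩ := hen
  have hlt : e < n := by
    rcases Nat.lt_or_ge e n with h | h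
    · exact h
    · exfalso
      obtain ⟨g, hg⟩ := hne
      apply hg
      rw [← chiAdd_eq_zero_iff]
      have h1 := hdvd g
      have h2 : (chiAdd χ g).val < n := ZMod.val_lt _
      have h3 : (chiAdd χ g).val = 0 := by
        by_contra h0
        have := Nat.le_of_dvd (Nat.pos_of_ne_zero h0) h1
        omega
      exact (ZMod.val_eq_zero _).1 h3
  have hσval : (chiAdd χ σ).val = e := by
    rw [hσ]
    simp only [Int.cast_natCast]
    rw [ZMod.val_natCast, Nat.mod_eq_of_lt hlt]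
  refine ⟨σ, e, d, he0, hd.symm, hσval, fun g => ?_⟩
  obtain ⟨k, hk⟩ := hdvd g
  refine ⟨k, ?_, by rw [hk, mul_comm]⟩
  have h2 : (chiAdd χ g).val < n := ZMod.val_lt _
  rw [hk, hd] at h2
  exact lt_of_mul_lt_mul_left h2 (Nat.zero_le e)

end Generator

end Fermat.Agent.S55.G.Rec.K5H379
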