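import Fermat.Agent.S55.G.Rec.K5H379.Telescope
import Fermat.Agent.S55.G.Rec.K5H379.Poincare
import Fermat.Agent.S55.G.Rec.RelNormH707
import Fermat.Agent.S55.G.Rec.Spec2

/-!
# S55 / G / REC, leaf K5 (helper379): the local norm criterion `LocalNormSpec`

Direct proof on level-constant cochains (no finite-level dictionary):

1. `lcc q V n χ a = 0` gives a level-constant `u : V → ℚ̄_qˣ` with `d u = cupChar χ a`;
2. `u|_{ker χ}` is a level-constant 1-cocycle, hence a coboundary (`hilbert90_local`, Poincaré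
   series + Dedekind, `Poincare.lean`);
3. the telescoping argument (`Telescope.lean`) gives `a = ∏_{k<d} σ^k b`, `b` fixed by `ker χ`;
4. `{σ^k}_{k<d}` represents `V / ker χ` (`bijective_pow_quot`), so the product is `relNorm`.
-/

set_option autoImplicit false
set_option linter.style.haveILetI false

noncomputable section

namespace Fermat.Agent.S55.G.Rec.K5H379

open groupCohomology Fermat.Agent.S55.G.Rec Finset

local notation "Qb" => AlgebraicClosure ℚ
local notation "GQ" => (AlgebraicClosure ℚ ≃ₐ[ℚ] AlgebraicClosure ℚ)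

/-! ## Representatives of `G / ker χ` -/

section Quot

variable {G : Type*} [Group G] {n : ℕ} [NeZero n]

theorem bijective_pow_quot (χ : G →* Multiplicative (ZMod n)) {σ : G} {e d : ℕ} (he : 0 < e)
    (hed : e * d = n) (hσ : (chiAdd χ σ).val = e)
    (hall : ∀ g, ∃ k < d, (chiAdd χ g).val = k * e) :
    Function.Bijective fun i : Fin d => ((σ ^ (i : ℕ) : G) : G ⧸ χ.ker) := by
  have hval : ∀ g h : G, (chiAdd χ g).val = (chiAdd χ h).val → g⁻¹ * h ∈ χ.ker := by
    intro g h hgh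
    have h1 : chiAdd χ g = chiAdd χ h := ZMod.val_injective n hgh
    have h2 : χ g = χ h := Multiplicative.toAdd.injective h1
    rw [MonoidHom.mem_ker, map_mul, map_inv, h2, inv_mul_cancel]
  constructor
  · intro i j hij
    have h1 : (σ ^ (i : ℕ))⁻¹ * σ ^ (j : ℕ) ∈ χ.ker := QuotientGroup.eq.mp hij
    rw [MonoidHom.mem_ker, map_mul, map_inv, inv_mul_eq_one] at h1
    have h2 : chiAdd χ (σ ^ (i : ℕ)) = chiAdd χ (σ ^ (j : ℕ)) := by
      unfold chiAdd
      rw [h1]
    have h3 := congrArg ZMod.val h2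
    rw [val_chiAdd_pow χ hed hσ i.2, val_chiAdd_pow χ hed hσ j.2] at h3
    exact Fin.ext (Nat.eq_of_mul_eq_mul_right he h3)
  · intro x
    induction x using QuotientGroup.induction_on with
    | H g =>
      obtain ⟨k, hk, hgk⟩ := hall g
      refine ⟨⟨k, hk⟩, ?_⟩
      apply QuotientGroup.eq.mpr
      apply hval
      rw [val_chiAdd_pow χ hed hσ hk, hgk]

end Quot

/-! ## Hilbert 90 for level-constant cocycles on subgroups of `G_{ℚ_q}` -/

section Local

variable (q : ℕ) [Fact q.Prime]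

local notation "Gq" => (PadicAlgCl q ≃ₐ[ℚ_[q]] PadicAlgCl q)

lemma lMod_rho_apply (V : Subgroup Gq) (g : ↥V) (x : lModOn q V) :
    (lModOn q V).ρ g x = Additive.ofMul ((g : Gq) • (Additive.toMul x : (PadicAlgCl q)ˣ)) := rfl

lemma finiteIndex_comap_of_finiteIndex {G G' : Type*} [Group G] [Group G'] (f : G' →* G)
    (K : Subgroup G) [K.FiniteIndex] : (K.comap f).FiniteIndex := by
  refine ⟨?_⟩
  rw [Subgroup.index_comap]
  exact (Subgroup.instFiniteIndex_subgroupOf K f.range).index_ne_zero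

/-- **Hilbert 90** for level-constant 1-cocycles on an arbitrary subgroup `H` of `V ≤ G_{ℚ_q}`. -/
theorem hilbert90_local (V : Subgroup Gq) (H : Subgroup ↥V)
    (u : ↥V → lModOn q V) (hlev : IsLevelConstant₁ (lHom q V) u)
    (hcoc : ∀ h h' : ↥V, h ∈ H → h' ∈ H → u (h * h') = u h + (lModOn q V).ρ h (u h')) :
    ∃ c : lModOn q V, ∀ h ∈ H, u h = (lModOn q V).ρ h c - c := by
  obtain ⟨F, hF, hFu⟩ := hlev
  haveI := hF
  let ρ : ↥H →* Gq := V.subtype.comp H.subtype
  letI : MulSemiringAction ↥H (PadicAlgCl q) := MulSemiringAction.compHom _ ρ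
  have hsmul : ∀ (h : ↥H) (x : PadicAlgCl q), h • x = ((h : ↥V) : Gq) x := fun _ _ => rfl
  let f : ↥H →* GQ := (lHom q V).comp H.subtype
  let N : Subgroup ↥H := F.fixingSubgroup.comap f
  haveI : F.fixingSubgroup.FiniteIndex := RelNormH707.finiteIndex_of_isOpenQ ⟨F, hF, le_rfl⟩
  haveI : N.FiniteIndex := finiteIndex_comap_of_finiteIndex f _
  let ι : ↥F →* PadicAlgCl q :=
    ((padicEmbedding q : Qb →ₐ[ℚ] PadicAlgCl q) : Qb →* PadicAlgCl q).comp
      ((F.val : ↥F →ₐ[ℚ] Qb) : ↥F →* Qb)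
  have hι : ∀ x : ↥F, ι x = padicEmbedding q (x : Qb) := fun _ => rfl
  have hNmem : ∀ s : ↥H, s ∈ N ↔ localGaloisToGlobal q ((s : ↥V) : Gq) ∈ F.fixingSubgroup :=
    fun _ => Iff.rfl
  have hfix : ∀ s ∈ N, ∀ x, s • ι x = ι x := by
    intro s hs x
    rw [hsmul, hι, ← padicEmbedding_localGaloisToGlobal]
    congr 1
    exact (IntermediateField.mem_fixingSubgroup_iff F _).1 ((hNmem s).1 hs) x x.2
  have hN : ∀ g : ↥H, (∀ x, g • ι x = ι x) → g ∈ N := by
    intro g hg
    rw [hNmem, IntermediateField.mem_fixingSubgroup_iff]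
    intro x hx
    have h1 := hg ⟨x, hx⟩
    rw [hsmul, hι, ← padicEmbedding_localGaloisToGlobal] at h1
    exact (padicEmbedding q).injective h1
  let φ : ↥H → PadicAlgCl q := fun h => ((Additive.toMul (u (h : ↥V)) : (PadicAlgCl q)ˣ) :
    PadicAlgCl q)
  have hφ0 : ∀ g, φ g ≠ 0 := fun g => Units.ne_zero _
  have hφ : ∀ g h, φ (g * h) = φ g * g • φ h := by
    intro g h
    have h1 := hcoc (g : ↥V) (h : ↥V) g.2 h.2
    have h2 : φ (g * h) = ((Additive.toMul (u ((g : ↥V) * (h : ↥V))) : (PadicAlgCl q)ˣ) :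
      PadicAlgCl q) := rfl
    rw [h2, h1]
    rfl
  have hφlev : ∀ g, ∀ s ∈ N, φ (g * s) = φ g := by
    intro g s hs
    have h1 := hFu (g : ↥V) (s : ↥V) ((hNmem s).1 hs)
    show ((Additive.toMul (u ((g : ↥V) * (s : ↥V))) : (PadicAlgCl q)ˣ) : PadicAlgCl q) = _
    rw [h1]
  obtain ⟨c, hc0, hc⟩ := exists_mul_smul_eq ι N hfix hN φ hφ0 hφ hφlev
  refine ⟨toLMod q V (Units.mk0 c hc0)⁻¹, fun h hh => ?_⟩
  have h1 := hc ⟨h, hh⟩
  rw [eq_sub_iff_add_eq]
  apply Additive.toMul.injective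
  apply Units.ext
  show ((Additive.toMul (u h) : (PadicAlgCl q)ˣ) : PadicAlgCl q) * c⁻¹ = (h : Gq) c⁻¹
  rw [map_inv₀]
  have h2 : ((Additive.toMul (u h) : (PadicAlgCl q)ˣ) : PadicAlgCl q) * (h : Gq) c = c := h1
  have hc0' : (h : Gq) c ≠ 0 := by
    intro h0
    rw [h0, mul_zero] at h2
    exact hc0 h2.symm
  field_simp
  exact h2

/-- The underlying unit of an element of the module `lModOn q V`. -/
def lOut (V : Subgroup Gq) (x : lModOn q V) : (PadicAlgCl q)ˣ :=
  Additive.toMul (show Additive (PadicAlgCl q)ˣ from x)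

lemma lOut_add (V : Subgroup Gq) (x y : lModOn q V) :
    lOut q V (x + y) = lOut q V x * lOut q V y := rfl

lemma lOut_zero (V : Subgroup Gq) : lOut q V 0 = 1 := rfl

lemma lOut_rho (V : Subgroup Gq) (g : ↥V) (x : lModOn q V) :
    lOut q V ((lModOn q V).ρ g x) = g • lOut q V x := rfl

lemma lOut_toLMod (V : Subgroup Gq) (a : (PadicAlgCl q)ˣ) : lOut q V (toLMod q V a) = a := rfl

lemma lOut_sum_range (V : Subgroup Gq) (f : ℕ → lModOn q V) (d : ℕ) :
    lOut q V (∑ k ∈ range d, f k) = ∏ k ∈ range d, lOut q V (f k) := by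
  induction d with
  | zero =>
    rw [Finset.sum_range_zero, Finset.prod_range_zero, lOut_zero]
  | succ d ih =>
    rw [Finset.sum_range_succ, Finset.prod_range_succ, lOut_add, ih]

/-- **(K5) the local norm criterion.** -/
theorem localNorm : LocalNormSpec := by
  intro q _ V hV n _ χ hχ a ha hzero
  have hn : n ≠ 0 := NeZero.ne n
  haveI : χ.ker.FiniteIndex := inferInstance
  by_cases hne : ∃ g, χ g ≠ 1
  · rw [lcc_eq q V n χ a ⟨hn, hχ, ha⟩, continuousH2π_eq_zero_iff] at hzero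
    obtain ⟨u, hulev, hu⟩ := (mem_levelCoboundaries₂_iff _ _ _).1 hzero
    letI := H379.repAct (lModOn q V)
    have hu' : H379.cupChar n (chiAdd χ) (toLMod q V a) = H379.dOne u := by
      have h1 : (H379.cupChar n (chiAdd χ) (toLMod q V a) : ↥V × ↥V → lModOn q V) =
          (d₁₂ (lModOn q V)).hom u := hu.symm
      rw [h1]
      funext p
      rfl
    have hcoc : ∀ h h' : ↥V, h ∈ χ.ker → h' ∈ χ.ker →
        u (h * h') = u h + (lModOn q V).ρ h (u h') := by
      intro h h' hh hh'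
      have h1 := congrFun hu' (h, h')
      rw [H379.cupChar_apply, (chiAdd_eq_zero_iff χ h).2 hh, (chiAdd_eq_zero_iff χ h').2 hh'] at h1
      have h2 : H379.carry n (0 : ZMod n) 0 = 0 := by
        unfold H379.carry
        rw [ZMod.val_zero, add_zero]
        exact Nat.zero_div n
      rw [h2, zero_smul] at h1
      have h3 : (0 : lModOn q V) = (lModOn q V).ρ h (u h') - u (h * h') + u h := h1
      have h4 := h3.symm
      rw [sub_add_eq_add_sub, sub_eq_zero] at h4
      rw [← h4, add_comm]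
    obtain ⟨c, hc⟩ := hilbert90_local q V χ.ker u hulev hcoc
    obtain ⟨σ, e, d, he, hed, hσ, hall⟩ := exists_generator χ hne
    obtain ⟨hfix, hsum⟩ := telescope χ hu' (c := c) (fun h hh => hc h hh) he hed hσ
    set b : lModOn q V := u σ - (σ • c - c) with hb
    have hbfix : RelNormH707.FixedBy (G := ↥V) χ.ker (lOut q V b) := by
      intro h hh
      exact congrArg (lOut q V) (hfix h hh)
    refine ⟨lOut q V b, ?_, ?_⟩
    · rintro τ ⟨h, hh, rfl⟩
      exact hbfix h hh
    · rw [RelNormH707.relNorm_eq_prod_of_bijective hbfix (fun i : Fin d => σ ^ (i : ℕ))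
        (bijective_pow_quot χ he hed hσ hall)]
      rw [Fin.prod_univ_eq_prod_range (fun k => σ ^ k • lOut q V b) d]
      have h1 := congrArg (lOut q V) hsum
      rw [lOut_sum_range, lOut_toLMod] at h1
      exact h1
  · have hall : ∀ g, χ g = 1 := by
      intro g
      by_contra hg
      exact hne ⟨g, hg⟩
    have hker : χ.ker = ⊤ := by
      ext g
      simp [MonoidHom.mem_ker, hall g]
    refine ⟨a, fun τ hτ => ?_, ?_⟩
    · obtain ⟨h, -, rfl⟩ := hτ
      exact ha _ h.2
    · rw [RelNormH707.relNorm_of_fixed (G := ↥V) χ.ker (fun g => ha _ g.2), hker,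
        Subgroup.index_top, pow_one]

end Local

end Fermat.Agent.S55.G.Rec.K5H379
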