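import Fermat.Agent.S55.G.Rec.K5H379.Generator

/-!
# S55 / G / REC, leaf K5 (helper379): the telescoping argument (pure algebra)

`G` acts on `A`, `χ : G →* Multiplicative (ZMod n)`, and `cupChar n χ̃ a = d u` for a 1-cochain
`u` whose restriction to `ker χ` is the coboundary of `c`.  If `χ̃ σ = e` with `e * d = n`, then
`b := u σ - (σ • c - c)` is fixed by `ker χ` and `a = ∑_{k < d} σ ^ k • b`.
-/

set_option autoImplicit false

namespace Fermat.Agent.S55.G.Rec.K5H379

open Fermat.Agent.S55.G.Rec Finset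

section Telescope

variable {G A : Type*} [Group G] [AddCommGroup A] [DistribMulAction G A] {n : ℕ} [NeZero n]

lemma val_chiAdd_pow (χ : G →* Multiplicative (ZMod n)) {σ : G} {e d : ℕ}
    (hed : e * d = n) (hσ : (chiAdd χ σ).val = e) {k : ℕ} (hk : k < d) :
    (chiAdd χ (σ ^ k)).val = k * e := by
  have h1 : chiAdd χ σ = ((e : ℕ) : ZMod n) := by
    rw [← hσ, ZMod.natCast_zmod_val]
  rw [chiAdd_pow, h1, nsmul_eq_mul, ← Nat.cast_mul, ZMod.val_natCast]
  apply Nat.mod_eq_of_lt
  calc k * e < d * e := by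
        apply Nat.mul_lt_mul_of_pos_right hk
        rcases Nat.eq_zero_or_pos e with h | h
        · exfalso
          rw [h, zero_mul] at hed
          exact NeZero.ne n hed.symm
        · exact h
    _ = n := by rw [mul_comm, hed]

lemma chiAdd_pow_card (χ : G →* Multiplicative (ZMod n)) {σ : G} {e d : ℕ}
    (hed : e * d = n) (hσ : (chiAdd χ σ).val = e) : χ (σ ^ d) = 1 := by
  rw [← chiAdd_eq_zero_iff, chiAdd_pow]
  have h1 : chiAdd χ σ = ((e : ℕ) : ZMod n) := by
    rw [← hσ, ZMod.natCast_zmod_val]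
  rw [h1, nsmul_eq_mul, ← Nat.cast_mul, mul_comm, hed, ZMod.natCast_self]

theorem telescope (χ : G →* Multiplicative (ZMod n))
    {a : A} {u : G → A} (hu : H379.cupChar n (chiAdd χ) a = H379.dOne u)
    {c : A} (hc : ∀ h, χ h = 1 → u h = h • c - c)
    {σ : G} {e d : ℕ} (he : 0 < e) (hed : e * d = n) (hσ : (chiAdd χ σ).val = e) :
    (∀ h, χ h = 1 → h • (u σ - (σ • c - c)) = u σ - (σ • c - c)) ∧
      a = ∑ k ∈ range d, σ ^ k • (u σ - (σ • c - c)) := by
  set w : G → A := fun g => u g - (g • c - c) with hw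
  -- `cupChar = d w`
  have hdw : ∀ g h : G, H379.carry n (chiAdd χ g) (chiAdd χ h) • a =
      g • w h - w (g * h) + w g := by
    intro g h
    have := congrFun hu (g, h)
    rw [H379.cupChar_apply] at this
    rw [this]
    simp only [H379.dOne, hw, smul_sub, mul_smul]
    abel
  have hw0 : ∀ h, χ h = 1 → w h = 0 := by
    intro h hh
    simp only [hw, hc h hh, sub_self]
  have hcar0 : ∀ g h, χ h = 1 → H379.carry n (chiAdd χ g) (chiAdd χ h) = 0 := by
    intro g h hh
    rw [(chiAdd_eq_zero_iff χ h).2 hh]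
    unfold H379.carry
    rw [ZMod.val_zero, add_zero]
    exact Nat.div_eq_of_lt (ZMod.val_lt _)
  have hcar0' : ∀ g h, χ h = 1 → H379.carry n (chiAdd χ h) (chiAdd χ g) = 0 := by
    intro g h hh
    rw [H379.carry_comm]
    exact hcar0 g h hh
  -- right invariance
  have hright : ∀ g h, χ h = 1 → w (g * h) = w g := by
    intro g h hh
    have := hdw g h
    rw [hcar0 g h hh, zero_smul, hw0 h hh, smul_zero, zero_sub] at this
    exact (neg_add_eq_zero.1 this.symm)
  -- left equivariance
  have hleft : ∀ g h, χ h = 1 → w (h * g) = h • w g := by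
    intro g h hh
    have := hdw h g
    rw [hcar0' g h hh, zero_smul, hw0 h hh, add_zero] at this
    exact (sub_eq_zero.1 this.symm).symm
  have hfixed : ∀ g h, χ h = 1 → h • w g = w g := by
    intro g h hh
    rw [← hleft g h hh]
    have hconj : χ (g⁻¹ * h * g) = 1 := by
      rw [map_mul, map_mul, hh, mul_one, ← map_mul, inv_mul_cancel, map_one]
    have := hright g (g⁻¹ * h * g) hconj
    rw [← this]
    congr 1
    group
  refine ⟨fun h hh => hfixed σ h hh, ?_⟩
  have hd0 : 0 < d := by
    rcases Nat.eq_zero_or_pos d with h | h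
    · exfalso
      rw [h, mul_zero] at hed
      exact NeZero.ne n hed.symm
    · exact h
  have key : ∀ k ∈ range d, σ ^ k • w σ - (w (σ ^ (k + 1)) - w (σ ^ k)) = ((k + 1) / d) • a := by
    intro k hk
    have := hdw (σ ^ k) σ
    rw [← pow_succ] at this
    have hcarry : H379.carry n (chiAdd χ (σ ^ k)) (chiAdd χ σ) = (k + 1) / d := by
      unfold H379.carry
      rw [val_chiAdd_pow χ hed hσ (mem_range.1 hk), hσ, ← hed]
      have : k * e + e = (k + 1) * e := by ring
      rw [this, mul_comm e d, Nat.mul_div_mul_right _ _ he]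
    rw [hcarry] at this
    rw [this]
    abel
  have hsum := Finset.sum_congr rfl key
  rw [H379.sum_carry_smul a hd0, Finset.sum_sub_distrib, Finset.sum_range_sub
    (fun k => w (σ ^ k)), pow_zero, hw0 1 (map_one χ), hw0 (σ ^ d) (chiAdd_pow_card χ hed hσ),
    sub_zero, sub_zero] at hsum
  exact hsum.symm

end Telescope

end Fermat.Agent.S55.G.Rec.K5H379
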